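import Fermat.Agent.S30.GeoDefs

/-!
# GALREP / TATE-LEVEL (helper100): `J[p^n]` finite, and a number field fixing it pointwise
(sorry-free)
-/

set_option autoImplicit false

namespace Fermat.Agent.S30.Tate

open Fermat.Agent.S30

/-- `J[p^n]` is finite as soon as `J[p]` is. -/
theorem finite_torsion_pow {J : Type} [AddCommGroup J] (p : ℕ)
    (hfin : {x : J | p • x = 0}.Finite) (n : ℕ) : {x : J | p ^ n • x = 0}.Finite := by
  induction n with
  | zero =>
    have : {x : J | p ^ 0 • x = 0} = {0} := by
      ext x; simp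
    rw [this]; exact Set.finite_singleton 0
  | succ n ih =>
    have hfib : ∀ y : J, {x : J | p • x = y}.Finite := by
      intro y
      by_cases h : ∃ x0 : J, p • x0 = y
      · obtain ⟨x0, hx0⟩ := h
        refine (hfin.image (fun z => x0 + z)).subset ?_
        intro x hx
        refine ⟨x - x0, ?_, by simp⟩
        simp only [Set.mem_ofPred_eq] at hx ⊢
        rw [smul_sub, hx, hx0, sub_self]
      · have : {x : J | p • x = y} = ∅ := by
          ext x
          simp only [Set.mem_ofPred_eq, Set.mem_empty_iff_false, iff_false]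
          exact fun hx => h ⟨x, hx⟩
        rw [this]; exact Set.finite_empty
    refine (ih.biUnion (fun y _ => hfib y)).subset ?_
    intro x hx
    simp only [Set.mem_ofPred_eq] at hx
    simp only [Set.mem_iUnion, Set.mem_ofPred_eq, exists_prop]
    refine ⟨p • x, ?_, rfl⟩
    rw [smul_smul, ← pow_succ]; exact hx

/-- **TATE-LEVEL**: HK4 + FIN give, for every `n`, a number field whose absolute Galois group
fixes `J₀(N)[p^n]` pointwise. -/
theorem exists_level (N p : ℕ) [NeZero N] (hOS : OpenStabilizers N) (hFin : TorsionFinite N p)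
    (n : ℕ) : ∃ L : IntermediateField ℚ (AlgebraicClosure ℚ), FiniteDimensional ℚ L ∧
      ∀ σ : GQ, (∀ y ∈ L, σ y = y) → ∀ x : ModularCurve.JZero N, p ^ n • x = 0 → σ • x = x := by
  classical
  have hF : {x : ModularCurve.JZero N | p ^ n • x = 0}.Finite := finite_torsion_pow p hFin n
  choose Lx hLx hfix using hOS
  refine ⟨⨆ x ∈ hF.toFinset, Lx x, ?_, ?_⟩
  · exact IntermediateField.finiteDimensional_iSup_of_finset' (fun x _ => hLx x)
  · intro σ hσ x hx
    refine hfix x σ (fun y hy => hσ y ?_)
    have hle : Lx x ≤ ⨆ x ∈ hF.toFinset, Lx x :=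
      le_iSup₂_of_le x (by simpa using hx) le_rfl
    exact hle hy

end Fermat.Agent.S30.Tate
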